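import Fermat.Agent.FF19.A.Interface
import Fermat.Agent.RED.EvBasic

/-!
# FF19 / A : FFA-3, existence of the representation `z = [∑ P i - ∑ P0 i]` (task 1775)
-/

set_option autoImplicit false

noncomputable section

namespace Fermat.Agent.FF19.A

open AlgebraicCurve
open Fermat.Agent.INJ (RedData)
open Fermat.Agent.RED (Ev)

theorem EX_degree_sumPl {K F : Type} [Field K] [Field F] [Algebra K F] {g : ℕ}
    (hdeg : ∀ P : Place K F, P.deg = 1) (P : Fin g → Place K F) :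
    Divisor.degree (sumPl P) = g := by
  unfold sumPl
  rw [map_sum]
  simp [Divisor.degree_single, hdeg]

theorem ex (hC : Stmt_Comb) (hR : Stmt_RedConst) : Stmt_Ex := by
  intro K F k κ _ _ _ _ _ _ D sp g x P0 hSp hCF hB z hz
  obtain ⟨E, hE0, rfl⟩ := hz
  obtain ⟨-, hC2, hC3, -, hC5, -, -⟩ := hC K F k κ sp
  have hdegE : Divisor.degree E.1 = 0 := E.2
  have hdeg : Divisor.degree (E.1 + sumPl P0) = g := by
    rw [map_add, hdegE, zero_add, EX_degree_sumPl hCF.deg1]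
  obtain ⟨f0, hf0, hf0E⟩ := hCF.eff (E.1 + sumPl P0) (le_of_eq hdeg.symm)
  obtain ⟨a, ha, ha1, ha2⟩ := D.unram f0 hf0
  have ha' : algebraMap K F a ≠ 0 := (map_ne_zero _).2 ha
  have hfne : f0 * algebraMap K F a ≠ 0 := mul_ne_zero hf0 ha'
  have hrd : D.rd (f0 * algebraMap K F a) ≠ 0 := RedData.rd_ne_zero_of_inv_mem hfne ha1 ha2
  have hord : ∀ P : Place K F, P.ord (f0 * algebraMap K F a) = P.ord f0 := fun P => by
    rw [P.ord_mul hf0 ha', RED.ev_ord_eq_zero (RED.ev_const P a) ha, add_zero]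
  obtain ⟨Ef, hEf, hEfdeg⟩ := hCF.princ _ hfne
  have hpush : push sp (E.1 + sumPl P0) = sumPl x := by
    rw [(hC2 _ _).1, hE0, zero_add, hC3]
    congr 1
    funext i
    exact hB.sp0 i
  have hpos : 0 ≤ (E.1 + sumPl P0) + Ef := by
    intro P
    rw [Finsupp.add_apply, hEf P, hord P]
    exact hf0E P
  obtain ⟨-, hEf0⟩ := hR K F k κ D sp g x P0 hSp hB _ Ef _ hrd hEf hpush hpos
  have hpush2 : push sp ((E.1 + sumPl P0) + Ef) = sumPl x := by
    rw [(hC2 _ _).1, hpush, hEf0, add_zero]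
  obtain ⟨P, hP, hPE⟩ := hC5 g x hB.inj _ hpos hpush2
  have hmem : sumPl P - sumPl P0 ∈ Divisor.degZero (K := K) (F := F) := by
    rw [Divisor.mem_degZero, map_sub, EX_degree_sumPl hCF.deg1, EX_degree_sumPl hCF.deg1, sub_self]
  refine ⟨P, hP, ⟨sumPl P - sumPl P0, hmem⟩, rfl, ?_⟩
  unfold Pic0.mk
  rw [QuotientAddGroup.eq, AddSubgroup.mem_addSubgroupOf]
  have h1 : ((-(⟨sumPl P - sumPl P0, hmem⟩ : Divisor.degZero (K := K) (F := F)) + E :
      Divisor.degZero (K := K) (F := F)) : Divisor K F) = -Ef := by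
    push_cast
    rw [← hPE]
    abel
  rw [h1]
  exact neg_mem ⟨_, hfne, hEf⟩

end Fermat.Agent.FF19.A

end

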