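import Fermat.Agent.FF19.A.Interface
import Fermat.Agent.RED.EvBasic

/-!
# FF19 / A : FFA-7, equivariance under semilinear automorphisms (`Stmt_Gal`)
-/

set_option autoImplicit false

noncomputable section

namespace Fermat.Agent.FF19.A

open AlgebraicCurve
open Fermat.Agent.INJ (RedData)
open Fermat.Agent.RED (Ev)

section GA

variable {K F k κ : Type*} [Field K] [Field F] [Algebra K F] [Field k] [Field κ] [Algebra k κ]

theorem GA_push_smul (sp : Place K F → Place k κ) (s : SemilinearAut K F)
    (hs : ∀ P : Place K F, sp (s • P) = sp P) (E : Divisor K F) :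
    push sp (s • E) = push sp E := by
  unfold push
  rw [SemilinearAut.divisor_smul_def, ← Finsupp.mapDomain_comp]
  have h : sp ∘ (fun P : Place K F => s • P) = sp := funext hs
  rw [h]

theorem GA_smul_sumPl (s : SemilinearAut K F) {g : ℕ} (P : Fin g → Place K F) :
    s • sumPl P = sumPl (fun i => s • P i) := by
  unfold sumPl
  rw [Finset.smul_sum]
  exact Finset.sum_congr rfl fun i _ => SemilinearAut.smul_single s (P i) 1

end GA

theorem gal : Stmt_Gal := by
  intro K F k κ _ _ _ _ _ _ sp g x P0 s hs hP0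
  refine ⟨?_, ?_, ?_⟩
  · rintro z ⟨E, hE, rfl⟩
    refine ⟨SemilinearAut.degZeroSMulHom s E, ?_, (SemilinearAut.pic0_smul_mk s E).symm⟩
    rw [SemilinearAut.coe_degZeroSMulHom, GA_push_smul sp s hs, hE]
  · rintro z P ⟨hP, E, hE, rfl⟩
    refine ⟨fun i => by rw [hs, hP i], SemilinearAut.degZeroSMulHom s E, ?_,
      (SemilinearAut.pic0_smul_mk s E).symm⟩
    rw [SemilinearAut.coe_degZeroSMulHom, hE, smul_sub, GA_smul_sumPl, GA_smul_sumPl]
    have h : (fun i => s • P0 i) = P0 := funext hP0
    rw [h]
  · intro P y c h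
    exact Fermat.Agent.RED.ev_smul s h

end Fermat.Agent.FF19.A

end
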