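import Fermat.Agent.FF19.A.Interface
import Fermat.Agent.RED.EvBasic
import Fermat.Agent.S24.PlaceBasic

/-!
# FF19 / A : FFA-2 (constant reduction), FFA-4 (`L(∑ P i) = K`)   (helper40)
-/

set_option autoImplicit false

noncomputable section

namespace Fermat.Agent.FF19.A

open AlgebraicCurve
open Fermat.Agent.INJ (RedData)
open Fermat.Agent.RED (Ev)

/-- **FFA-2** -/
theorem redConst (hC : Stmt_Comb) : Stmt_RedConst := by
  intro K F k κ _ _ _ _ _ _ D sp g x P0 hS hB f Ef E' hrd hEf hE' hpos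
  obtain ⟨c1, c2, -, -, -, -, -⟩ := hC K F k κ sp
  have h1 : 0 ≤ push sp (E' + Ef) := c1 _ hpos
  rw [(c2 E' Ef).1, hE'] at h1
  obtain ⟨c, hc⟩ := hB.ns (D.rd f) hrd (fun y => by
    have h2 := h1 y
    rw [Finsupp.add_apply, hS f Ef hrd hEf y] at h2
    exact h2)
  have hc0 : c ≠ 0 := by
    rintro rfl
    exact hrd (by rw [hc, map_zero])
  refine ⟨⟨c, hc0, hc⟩, ?_⟩
  ext y
  rw [hS f Ef hrd hEf y, hc, Fermat.Agent.S24.ord_algebraMap]
  rfl

/-- subtracting a constant does not make the poles worse. -/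
theorem RC_ord_sub_const {K F : Type} [Field K] [Field F] [Algebra K F] (R : Place K F) {h : F}
    (h0 : h ≠ 0) (e : K) (n : ℤ) (hn : 0 ≤ n) (hh : 0 ≤ n + R.ord h) :
    0 ≤ n + R.ord (h - algebraMap K F e) := by
  by_cases hR : 0 ≤ R.ord h
  · have h1 : h ∈ R.toValuationSubring := Fermat.Agent.S24.mem_of_ord_nonneg R h0 hR
    have h2 : h - algebraMap K F e ∈ R.toValuationSubring := sub_mem h1 (R.algebraMap_mem' e)
    have h3 := Fermat.Agent.S24.ord_nonneg_of_mem R h2
    omega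
  · rcases eq_or_ne e 0 with rfl | he
    · rwa [map_zero, sub_zero]
    · have h1 : algebraMap K F (-e) ≠ 0 := by
        rw [Ne, map_eq_zero]
        exact neg_ne_zero.2 he
      have h2 : R.ord (h + algebraMap K F (-e)) = R.ord h :=
        Fermat.Agent.S24.ord_add_eq_of_lt R h0 h1 (by
          rw [Fermat.Agent.S24.ord_algebraMap]
          omega)
      rw [map_neg, ← sub_eq_add_neg] at h2
      rwa [h2]

/-- **FFA-4** -/
theorem lk (hC : Stmt_Comb) (hR : Stmt_RedConst) : Stmt_LK := by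
  intro K F k κ _ _ _ _ _ _ D sp g x P0 hS hF hB P hsp h h0 hh
  obtain ⟨-, -, c3, c4, -, -, c7⟩ := hC K F k κ sp
  obtain ⟨Q0, hQ0⟩ := hB.out
  -- places in the fibre of `sp Q0` are not among the `P i`
  have hfib : ∀ R : Place K F, sp R = sp Q0 → sumPl P R = 0 := by
    intro R hR
    refine (c4 g P).2.1 R (fun i e => hQ0 i ?_)
    rw [← hR, e]
    exact hsp i
  have hord0 : 0 ≤ Q0.ord h := by
    have := hh Q0
    rwa [hfib Q0 rfl, zero_add] at this
  obtain ⟨e, he⟩ := hF.resK Q0 h (Fermat.Agent.S24.mem_of_ord_nonneg Q0 h0 hord0)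
  by_cases hu0 : h - algebraMap K F e = 0
  · exact ⟨e, sub_eq_zero.1 hu0⟩
  exfalso
  have hi : ∀ R : Place K F, 0 ≤ sumPl P R + R.ord (h - algebraMap K F e) := fun R =>
    RC_ord_sub_const R h0 e _ ((c4 g P).1 R) (hh R)
  obtain ⟨a, ha0, haO, haO'⟩ := D.unram _ hu0
  have haF : algebraMap K F a ≠ 0 := by
    rw [Ne, map_eq_zero]
    exact ha0
  have hune : (h - algebraMap K F e) * algebraMap K F a ≠ 0 := mul_ne_zero hu0 haF
  have hrd : D.rd ((h - algebraMap K F e) * algebraMap K F a) ≠ 0 :=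
    RedData.rd_ne_zero_of_inv_mem hune haO haO'
  have hord : ∀ R : Place K F, R.ord ((h - algebraMap K F e) * algebraMap K F a)
      = R.ord (h - algebraMap K F e) := by
    intro R
    rw [R.ord_mul hu0 haF, Fermat.Agent.S24.ord_algebraMap, add_zero]
  obtain ⟨Eu, hEu, -⟩ := hF.princ _ hune
  have hpush : push sp (sumPl P) = sumPl x := by
    rw [c3]
    exact congrArg sumPl (funext hsp)
  have hpos : 0 ≤ sumPl P + Eu := by
    intro R
    rw [Finsupp.add_apply, hEu R, hord R]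
    exact hi R
  have hz : push sp Eu = 0 := (hR K F k κ D sp g x P0 hS hB _ Eu (sumPl P) hrd hEu hpush hpos).2
  have h7 := (c7 Eu (sp Q0) (fun R hRy => by
    have := hi R
    rwa [hfib R hRy, zero_add, ← hord R, ← hEu R] at this)).1 Q0 rfl
  rw [hz, hEu Q0, hord Q0] at h7
  have hev : Ev Q0 (h - algebraMap K F e) 0 := by
    have := Fermat.Agent.RED.ev_sub he (Fermat.Agent.RED.ev_const Q0 e)
    rwa [sub_self] at this
  have hpos' := (Fermat.Agent.RED.ev_zero_iff_ord hu0).1 hev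
  have h8 : Q0.ord (h - algebraMap K F e) ≤ 0 := h7
  omega

end Fermat.Agent.FF19.A

end
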