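import Fermat.Agent.FF19.A.Interface
import Fermat.Agent.RED.EvBasic

/-!
# FF19 / A : FFA-12, the TWO-CHART form of the group law (helper36)

Two bases `(x, P0)`, `(x', P0')`.  `D_z = ∑ P i ∼ z + D₀`, `D'_{z'} = ∑ P' i ∼ z' + D₀'`,
`D_{z+z'} = ∑ P'' i ∼ z + z' + D₀`.  Then `L(D_z + D'_{z'} - D₀')` is the LINE spanned by a function with divisor
`D_{z+z'} + D₀' - D_z - D'_{z'}`.
-/

set_option autoImplicit false

noncomputable section

namespace Fermat.Agent.FF19.A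

open AlgebraicCurve
open Fermat.Agent.INJ (RedData)
open Fermat.Agent.RED (Ev)

/-- **FFA-12** (two charts): existence (`geo1` of block L) and strong uniqueness (`geo2` of block L). -/
def Stmt_Mix : Prop :=
  ∀ (K F k κ : Type) [Field K] [Field F] [Algebra K F] [Field k] [Field κ] [Algebra k κ]
    (D : RedData K F k κ) (sp : Place K F → Place k κ) (g : ℕ) (x x' : Fin g → Place k κ)
    (P0 P0' : Fin g → Place K F), SpData D sp → CurveFacts K F g → Base sp x P0 →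
    ∀ (z z' : Pic0 K F) (P P' P'' : Fin g → Place K F), Rep sp x P0 z P → Rep sp x' P0' z' P' →
      Rep sp x P0 (z + z') P'' →
      (∃ f : F, f ≠ 0 ∧ IsDivOf (sumPl P'' + sumPl P0' - sumPl P - sumPl P') f) ∧
      (∀ f : F, f ≠ 0 → (∀ Q : Place K F, 0 ≤ (sumPl P + sumPl P' - sumPl P0') Q + Q.ord f) →
        IsDivOf (sumPl P'' + sumPl P0' - sumPl P - sumPl P') f)

theorem MX_mk_eq {K F : Type} [Field K] [Field F] [Algebra K F]
    {E E' : Divisor.degZero (K := K) (F := F)} (h : Pic0.mk E = Pic0.mk E') :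
    ∃ f : F, f ≠ 0 ∧ IsDivOf (E'.1 - E.1) f := by
  unfold Pic0.mk at h
  rw [QuotientAddGroup.eq, AddSubgroup.mem_addSubgroupOf] at h
  obtain ⟨f, hf, hd⟩ := h
  refine ⟨f, hf, fun P => ?_⟩
  rw [← hd P]
  have h2 : ((-E + E' : Divisor.degZero (K := K) (F := F)) : Divisor K F) = E'.1 - E.1 := by
    push_cast
    abel
  rw [h2]

theorem mix (hLK : Stmt_LK) : Stmt_Mix := by
  intro K F k κ _ _ _ _ _ _ D sp g x x' P0 P0' hSp hCF hB z z' P P' P'' hz hz' hzz
  obtain ⟨-, E, hE, hEz⟩ := hz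
  obtain ⟨-, E', hE', hEz'⟩ := hz'
  obtain ⟨hP'', E'', hE'', hEzz⟩ := hzz
  have h1 : Pic0.mk (E + E') = Pic0.mk E'' := by
    rw [Pic0.mk_add, hEz, hEz', hEzz]
  obtain ⟨f0, hf0, hd0⟩ := MX_mk_eq h1
  have hd0' : IsDivOf (sumPl P'' + sumPl P0' - sumPl P - sumPl P') f0 := by
    intro Q
    rw [← hd0 Q]
    have h2 : E''.1 - ((E + E' : Divisor.degZero (K := K) (F := F)) : Divisor K F) =
        sumPl P'' + sumPl P0' - sumPl P - sumPl P' := by
      push_cast
      rw [hE, hE', hE'']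
      abel
    rw [h2]
  refine ⟨⟨f0, hf0, hd0'⟩, fun f hf hpos => ?_⟩
  have hh : f * f0⁻¹ ≠ 0 := mul_ne_zero hf (inv_ne_zero hf0)
  obtain ⟨c, hc⟩ := hLK K F k κ D sp g x P0 hSp hCF hB P'' hP'' (f * f0⁻¹) hh (fun Q => by
    rw [Q.ord_mul hf (inv_ne_zero hf0), Q.ord_inv, ← hd0' Q]
    have := hpos Q
    simp only [Finsupp.sub_apply, Finsupp.add_apply] at this ⊢
    linarith)
  have hc0 : c ≠ 0 := by
    rintro rfl
    rw [map_zero] at hc
    exact hh hc
  have hf' : f = algebraMap K F c * f0 := by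
    rw [← hc, mul_assoc, inv_mul_cancel₀ hf0, mul_one]
  intro Q
  rw [hd0' Q, hf', Q.ord_mul ((map_ne_zero _).2 hc0) hf0,
    RED.ev_ord_eq_zero (RED.ev_const Q c) hc0, zero_add]

end Fermat.Agent.FF19.A

end
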