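import Fermat.Agent.FF19.A.Interface
import Fermat.Agent.RED.EvBasic

/-!
# FF19 / A : FFA-5 (uniqueness), FFA-8 (group law), FFA-9 (`J¹ ≃ ∏ disc (x i)`)   (helper40)
-/

set_option autoImplicit false

noncomputable section

namespace Fermat.Agent.FF19.A

open AlgebraicCurve
open Fermat.Agent.INJ (RedData)
open Fermat.Agent.RED (Ev)

section Aux

variable {K F k κ : Type} [Field K] [Field F] [Algebra K F] [Field k] [Field κ] [Algebra k κ]

/-- equality of classes in `Pic⁰`. -/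
theorem UQ_mk_eq (E E' : Divisor.degZero (K := K) (F := F)) :
    Pic0.mk E = Pic0.mk E' ↔ ∃ f : F, f ≠ 0 ∧ ∀ P : Place K F, (E.1 - E'.1) P = P.ord f := by
  unfold Pic0.mk
  rw [QuotientAddGroup.eq, AddSubgroup.mem_addSubgroupOf, Divisor.mem_principal]
  have hcoe : ((-E + E' : Divisor.degZero (K := K) (F := F)) : Divisor K F) = -E.1 + E'.1 := rfl
  rw [hcoe]
  constructor
  · rintro ⟨f, hf, h⟩
    refine ⟨f⁻¹, inv_ne_zero hf, fun P => ?_⟩
    rw [Place.ord_inv, ← h P]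
    simp only [Finsupp.sub_apply, Finsupp.add_apply, Finsupp.neg_apply]
    ring
  · rintro ⟨f, hf, h⟩
    refine ⟨f⁻¹, inv_ne_zero hf, fun P => ?_⟩
    rw [Place.ord_inv, ← h P]
    simp only [Finsupp.sub_apply, Finsupp.add_apply, Finsupp.neg_apply]
    ring

theorem UQ_push_zero (sp : Place K F → Place k κ) : push sp (0 : Divisor K F) = 0 :=
  Finsupp.mapDomain_zero

/-- the degree of `∑ P i`. -/
theorem UQ_degree_sumPl {g : ℕ} (h1 : ∀ P : Place K F, P.deg = 1) (P : Fin g → Place K F) :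
    Divisor.degree (sumPl P) = g := by
  unfold sumPl
  rw [map_sum]
  simp [Divisor.degree_single, h1]

/-- the order of a non zero constant. -/
theorem UQ_ord_const (Q : Place K F) {c : K} (hc : c ≠ 0) : Q.ord (algebraMap K F c) = 0 :=
  Fermat.Agent.RED.ev_ord_eq_zero (Fermat.Agent.RED.ev_const Q c) hc

end Aux

/-- **FFA-5** -/
theorem uniq (hC : Stmt_Comb) (hL : Stmt_LK) : Stmt_Uniq := by
  intro K F k κ _ _ _ _ _ _ D sp g x P0 hS hF hB z P P' hP hP'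
  obtain ⟨-, -, -, c4, -, c6, -⟩ := hC K F k κ sp
  obtain ⟨hsp, E, hE, hz⟩ := hP
  obtain ⟨hsp', E', hE', hz'⟩ := hP'
  obtain ⟨h, h0, hh⟩ := (UQ_mk_eq E E').1 (hz.trans hz'.symm)
  have hd : ∀ Q : Place K F, sumPl P Q = sumPl P' Q + Q.ord h := by
    intro Q
    have := hh Q
    rw [hE, hE'] at this
    simp only [Finsupp.sub_apply] at this
    linarith
  obtain ⟨c, hc⟩ := hL K F k κ D sp g x P0 hS hF hB P' hsp' h h0 (fun Q => by
    rw [← hd Q]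
    exact (c4 g P).1 Q)
  have hc0 : c ≠ 0 := by
    rintro rfl
    exact h0 (by rw [hc, map_zero])
  refine c6 g x hB.inj P P' hsp hsp' ?_
  ext Q
  rw [hd Q, hc, UQ_ord_const Q hc0, add_zero]

/-- **FFA-8** -/
theorem add (hC : Stmt_Comb) : Stmt_Add := by
  intro K F k κ _ _ _ _ _ _ sp g x P0 hsp0
  obtain ⟨-, c2, c3, -, -, -, -⟩ := hC K F k κ sp
  refine ⟨?_, ⟨0, UQ_push_zero sp, rfl⟩, ⟨hsp0, 0, (sub_self _).symm, rfl⟩, ?_, ?_⟩
  · rintro z z' ⟨E, hE, rfl⟩ ⟨E', hE', rfl⟩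
    refine ⟨⟨E + E', ?_, Pic0.mk_add E E'⟩, ⟨-E, ?_, rfl⟩⟩
    · show push sp (E.1 + E'.1) = 0
      rw [(c2 E.1 E'.1).1, hE, hE', add_zero]
    · show push sp (-E.1) = 0
      rw [← zero_sub, (c2 0 E.1).2, hE, UQ_push_zero, sub_zero]
  · rintro z P ⟨hsp, E, hE, hz⟩
    refine ⟨E, ?_, hz⟩
    rw [hE, (c2 _ _).2, c3, c3]
    have h1 : (fun i => sp (P i)) = x := funext hsp
    have h2 : (fun i => sp (P0 i)) = x := funext hsp0
    rw [h1, h2, sub_self]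
  · rintro z z' P P' P'' ⟨-, E, hE, hz⟩ ⟨-, E', hE', hz'⟩ ⟨-, E'', hE'', hz''⟩
    have h1 : Pic0.mk E'' = Pic0.mk (E + E') := by
      rw [Pic0.mk_add, hz, hz', hz'']
    obtain ⟨f, hf, h⟩ := (UQ_mk_eq E'' (E + E')).1 h1
    refine ⟨f, hf, fun Q => ?_⟩
    rw [← h Q]
    have h2 : ((E + E' : Divisor.degZero (K := K) (F := F)) : Divisor K F) = E.1 + E'.1 := rfl
    rw [h2, hE, hE', hE'']
    congr 1
    abel

/-- **FFA-9** -/
theorem param (_hC : Stmt_Comb) (hE : Stmt_Ex) (hU : Stmt_Uniq) (hA : Stmt_Add) : Stmt_Param := by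
  intro K F k κ _ _ _ _ _ _ D sp g x P0 hS hF hB
  obtain ⟨-, -, -, a4, -⟩ := hA K F k κ sp g x P0 hB.sp0
  refine ⟨fun z => ⟨fun hz => hE K F k κ D sp g x P0 hS hF hB z hz, ?_⟩,
    hU K F k κ D sp g x P0 hS hF hB, ?_, ?_⟩
  · rintro ⟨P, hP⟩
    exact a4 z P hP
  · rintro z z' P ⟨-, E, hE, hz⟩ ⟨-, E', hE', hz'⟩
    have : E = E' := Subtype.ext (hE.trans hE'.symm)
    rw [← hz, ← hz', this]
  · intro P hsp
    have hdeg : sumPl P - sumPl P0 ∈ Divisor.degZero (K := K) (F := F) := by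
      rw [Divisor.mem_degZero, map_sub, UQ_degree_sumPl hF.deg1, UQ_degree_sumPl hF.deg1, sub_self]
    exact ⟨Pic0.mk ⟨_, hdeg⟩, hsp, ⟨_, hdeg⟩, rfl, rfl⟩

end Fermat.Agent.FF19.A

end
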