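import Fermat.Agent.FF19.A.Interface
import Fermat.Agent.RED.EvBasic

/-!
# FF19 / A : FFA-6 (`Stmt_TInj`) and FFA-10 (`Stmt_Coord`)

The coordinate `t` is injective on each residue disc, and the coordinates determine `z ∈ J¹`.
-/

set_option autoImplicit false

noncomputable section

namespace Fermat.Agent.FF19.A

open AlgebraicCurve
open Fermat.Agent.INJ (RedData)
open Fermat.Agent.RED (Ev)

section TI

variable {K F k κ : Type} [Field K] [Field F] [Algebra K F] [Field k] [Field κ] [Algebra k κ]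

/-- two elements of `A` with the same reduction differ by a non unit. -/
theorem TI_sub_mem_nonunits (D : RedData K F k κ) {c c' : K} (hc : c ∈ D.A) (hc' : c' ∈ D.A)
    (h : D.ra c = D.ra c') : c - c' ∈ D.A.nonunits := by
  have hmem : c - c' ∈ D.A := sub_mem hc hc'
  have h0 : D.rA ⟨c - c', hmem⟩ = 0 := by
    have h1 : (⟨c - c', hmem⟩ : D.A) = ⟨c, hc⟩ - ⟨c', hc'⟩ := rfl
    rw [h1, map_sub, ← RedData.ra_of_mem hc, ← RedData.ra_of_mem hc', h, sub_self]
  rw [ValuationSubring.mem_nonunits_iff_exists_mem_maximalIdeal]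
  refine ⟨hmem, ?_⟩
  rw [IsLocalRing.mem_maximalIdeal, mem_nonunits_iff]
  intro hu
  have h2 := hu.map D.rA
  rw [h0] at h2
  exact not_isUnit_zero h2

/-- the value of `t` at a point of the disc of `x i` lies in `A` and reduces to `cb i`. -/
theorem TI_val (D : RedData K F k κ) (sp : Place K F → Place k κ) {g : ℕ} (x : Fin g → Place k κ)
    (t : F) (cb : Fin g → k) (hco : Coord D sp x t cb) (i : Fin g) (P : Place K F) (c : K)
    (hP : sp P = x i) (hc : Ev P t c) : c ∈ D.A ∧ D.ra c = cb i := by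
  obtain ⟨c1, hc1, hev, hra⟩ := hco.ev i P hP
  have := RED.ev_unique hc hev
  subst this
  exact ⟨hc1, hra⟩

end TI

/-- **FFA-6**. -/
theorem tInj (hC : Stmt_Comb) : Stmt_TInj := by
  intro K F k κ _ _ _ _ _ _ D sp g x t cb hsp hcf hco
  refine ⟨?_, ?_⟩
  · intro i P P' c hP hP' hc hc'
    by_contra hne
    obtain ⟨hcA, hra⟩ := TI_val D sp x t cb hco i P c hP hc
    have hrd : D.rd (t - algebraMap K F c) = D.rd t - algebraMap k κ (cb i) := by
      rw [RedData.rd_sub hco.t_mem (RedData.algebraMap_mem hcA), RedData.rd_algebraMap hcA, hra]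
    have hrd0 : D.rd (t - algebraMap K F c) ≠ 0 := by
      intro h0
      have h1 := hco.unr i
      rw [← hrd, h0, Place.ord_zero] at h1
      exact zero_ne_one h1
    have hf0 : t - algebraMap K F c ≠ 0 := by
      intro h0
      rw [h0] at hrd0
      exact hrd0 RedData.rd_zero
    obtain ⟨E, hE, -⟩ := hcf.princ _ hf0
    have hpush : push sp E (x i) = 1 := by
      rw [hsp _ E hrd0 hE (x i), hrd, hco.unr i]
    have hfib : ∀ R : Place K F, sp R = x i → 0 ≤ E R := by
      intro R hR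
      obtain ⟨c1, -, hev, -⟩ := hco.ev i R hR
      rw [hE R]
      exact S24.ord_nonneg_of_mem R (RED.ev_mem (RED.ev_sub hev (RED.ev_const R c)))
    have hpos : ∀ R : Place K F, Ev R t c → 1 ≤ E R := by
      intro R hR
      rw [hE R]
      have h1 : Ev R (t - algebraMap K F c) 0 := by
        have := RED.ev_sub hR (RED.ev_const R c)
        rwa [sub_self] at this
      have := (RED.ev_zero_iff_ord hf0).1 h1
      omega
    have h2 := ((hC K F k κ sp).2.2.2.2.2.2 E (x i) hfib).2 P P' hP hP' hne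
    have h3 := hpos P hc
    have h4 := hpos P' hc'
    omega
  · intro i P P' c c' hP hP' hc hc'
    obtain ⟨hcA, hra⟩ := TI_val D sp x t cb hco i P c hP hc
    obtain ⟨hcA', hra'⟩ := TI_val D sp x t cb hco i P' c' hP' hc'
    exact ⟨hcA, TI_sub_mem_nonunits D hcA hcA' (hra.trans hra'.symm)⟩

/-- **FFA-10**. -/
theorem coord (hT : Stmt_TInj) (hP : Stmt_Param) : Stmt_Coord := by
  intro K F k κ _ _ _ _ _ _ D sp g x P0 t cb hsp hcf hb hco
  obtain ⟨hp1, -, hp3, -⟩ := hP K F k κ D sp g x P0 hsp hcf hb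
  obtain ⟨ht1, ht2⟩ := hT K F k κ D sp g x t cb hsp hcf hco
  refine ⟨?_, ?_, ?_⟩
  · intro z hz
    obtain ⟨P, hrep⟩ := (hp1 z).1 hz
    have h1 : ∀ i, ∃ c : K, Ev (P i) t c := by
      intro i
      obtain ⟨c, -, hev, -⟩ := hco.ev i (P i) (hrep.1 i)
      exact ⟨c, hev⟩
    choose c hc using h1
    exact ⟨P, c, hrep, hc⟩
  · intro z z' P P' c hrep hrep' hv hv'
    have hPP : P = P' := by
      funext i
      exact ht1 i (P i) (P' i) (c i) (hrep.1 i) (hrep'.1 i) (hv i) (hv' i)
    subst hPP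
    exact hp3 z z' P hrep hrep'
  · intro z P c c0 hrep hv hv0 i
    exact ht2 i (P i) (P0 i) (c i) (c0 i) (hrep.1 i) (hb.sp0 i) (hv i) (hv0 i)

end Fermat.Agent.FF19.A

end
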