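import Fermat.Agent.FF19.A.Comb
import Fermat.Agent.FF19.A.LK
import Fermat.Agent.FF19.A.Ex
import Fermat.Agent.FF19.A.Param
import Fermat.Agent.FF19.A.TInj
import Fermat.Agent.FF19.A.Gal
import Fermat.Agent.FF19.A.Mix

/-!
# FF19 / A : all the statements of `Interface.lean` (+ `Stmt_Mix`), unconditional (helper36)

`all_CurveFacts` is in `AllCF.lean` (it imports the closure of S27).
-/

set_option autoImplicit false

namespace Fermat.Agent.FF19.A

theorem all_Comb : Stmt_Comb := comb
theorem all_RedConst : Stmt_RedConst := redConst all_Comb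
theorem all_LK : Stmt_LK := lk all_Comb all_RedConst
theorem all_Ex : Stmt_Ex := ex all_Comb all_RedConst
theorem all_Uniq : Stmt_Uniq := uniq all_Comb all_LK
theorem all_Add : Stmt_Add := add all_Comb
theorem all_Param : Stmt_Param := param all_Comb all_Ex all_Uniq all_Add
theorem all_TInj : Stmt_TInj := tInj all_Comb
theorem all_Coord : Stmt_Coord := coord all_TInj all_Param
theorem all_Gal : Stmt_Gal := gal
theorem all_Mix : Stmt_Mix := mix all_LK

end Fermat.Agent.FF19.A
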