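import Fermat.Agent.FF19.A.CurveFacts

/-!
# FF19 / A : `all_CurveFacts` (imports the closure of S27) (helper36)
-/

set_option autoImplicit false

namespace Fermat.Agent.FF19.A

theorem all_CurveFacts : Stmt_CurveFacts := curveFacts

end Fermat.Agent.FF19.A
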