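import Fermat.Agent.FF19.A.Interface

/-!
# FF19 / A : FFA-1, combinatorics of `Finsupp.mapDomain`   (helper93)
-/

set_option autoImplicit false

noncomputable section

namespace Fermat.Agent.FF19.A

open AlgebraicCurve

namespace Comb

open Classical

variable {α β : Type*}

/-- the value of a push forward as a sum over any finite set containing the support. -/
theorem mapDomain_apply_eq (sp : α → β) (E : α →₀ ℤ) (y : β) (T : Finset α) (hT : E.support ⊆ T) :
    Finsupp.mapDomain sp E y = ∑ Q ∈ T, if sp Q = y then E Q else 0 := by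
  rw [Finsupp.mapDomain, Finsupp.sum_apply, Finsupp.sum_of_support_subset E hT _ (by simp)]
  refine Finset.sum_congr rfl fun Q _ => ?_
  rw [Finsupp.single_apply]

theorem sum_single_apply {g : ℕ} (P : Fin g → α) (Q : α) :
    (∑ i, Finsupp.single (P i) (1 : ℤ)) Q = ∑ i, if P i = Q then (1 : ℤ) else 0 := by
  rw [Finsupp.finsetSum_apply]
  refine Finset.sum_congr rfl fun i _ => ?_
  rw [Finsupp.single_apply]

theorem sum_single_nonneg {g : ℕ} (P : Fin g → α) (Q : α) :
    0 ≤ (∑ i, Finsupp.single (P i) (1 : ℤ)) Q := by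
  rw [sum_single_apply]
  exact Finset.sum_nonneg fun i _ => by split_ifs <;> norm_num

theorem sum_single_eq_zero {g : ℕ} (P : Fin g → α) (Q : α) (h : ∀ i, Q ≠ P i) :
    (∑ i, Finsupp.single (P i) (1 : ℤ)) Q = 0 := by
  rw [sum_single_apply]
  exact Finset.sum_eq_zero fun i _ => if_neg fun h' => h i h'.symm

theorem one_le_sum_single {g : ℕ} (P : Fin g → α) (i : Fin g) :
    1 ≤ (∑ i, Finsupp.single (P i) (1 : ℤ)) (P i) := by
  rw [sum_single_apply]
  have h := Finset.single_le_sum (f := fun j => if P j = P i then (1 : ℤ) else 0)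
    (fun j _ => by split_ifs <;> norm_num) (Finset.mem_univ i)
  simpa using h

theorem sum_single_eq_one {g : ℕ} (P : Fin g → α) (hP : Function.Injective P) (i : Fin g) :
    (∑ i, Finsupp.single (P i) (1 : ℤ)) (P i) = 1 := by
  rw [sum_single_apply, Finset.sum_eq_single i]
  · simp
  · intro j _ hj
    exact if_neg fun h => hj (hP h)
  · intro h
    exact absurd (Finset.mem_univ i) h

/-- one term of a push forward. -/
theorem le_mapDomain (sp : α → β) (E : α →₀ ℤ) (y : β) (h : ∀ P, sp P = y → 0 ≤ E P) (P : α)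
    (hP : sp P = y) : E P ≤ Finsupp.mapDomain sp E y := by
  rw [mapDomain_apply_eq sp E y (E.support ∪ {P}) Finset.subset_union_left]
  have h1 := Finset.single_le_sum (f := fun Q => if sp Q = y then E Q else 0)
    (s := E.support ∪ {P}) (fun Q _ => by
      show 0 ≤ if sp Q = y then E Q else 0
      split_ifs with hQ
      · exact h Q hQ
      · exact le_rfl) (Finset.mem_union_right _ (Finset.mem_singleton_self P))
  simpa [hP] using h1

/-- two terms of a push forward. -/
theorem add_le_mapDomain (sp : α → β) (E : α →₀ ℤ) (y : β) (h : ∀ P, sp P = y → 0 ≤ E P)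
    (P P' : α) (hP : sp P = y) (hP' : sp P' = y) (hne : P ≠ P') :
    E P + E P' ≤ Finsupp.mapDomain sp E y := by
  rw [mapDomain_apply_eq sp E y (E.support ∪ {P, P'}) Finset.subset_union_left]
  have h1 : ∑ Q ∈ ({P, P'} : Finset α), (if sp Q = y then E Q else 0)
      ≤ ∑ Q ∈ E.support ∪ {P, P'}, if sp Q = y then E Q else 0 :=
    Finset.sum_le_sum_of_subset_of_nonneg Finset.subset_union_right (fun Q _ _ => by
      split_ifs with hQ
      · exact h Q hQ
      · exact le_rfl)
  rw [Finset.sum_pair hne, if_pos hP, if_pos hP'] at h1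
  exact h1

theorem mapDomain_nonneg (sp : α → β) (E : α →₀ ℤ) (h : 0 ≤ E) : 0 ≤ Finsupp.mapDomain sp E := by
  intro y
  rw [mapDomain_apply_eq sp E y E.support subset_rfl]
  exact Finset.sum_nonneg fun Q _ => by
    split_ifs
    · exact h Q
    · exact le_rfl

/-- an effective divisor with reduced push forward. -/
theorem exists_lift (sp : α → β) {g : ℕ} (x : Fin g → β) (hx : Function.Injective x) (E : α →₀ ℤ)
    (hE : 0 ≤ E) (h : Finsupp.mapDomain sp E = ∑ i, Finsupp.single (x i) (1 : ℤ)) :
    ∃ P : Fin g → α, (∀ i, sp (P i) = x i) ∧ E = ∑ i, Finsupp.single (P i) (1 : ℤ) := by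
  have hnn : ∀ (y : β) (P : α), sp P = y → 0 ≤ E P := fun _ P _ => hE P
  have hval : ∀ i, Finsupp.mapDomain sp E (x i) = 1 := fun i => by
    rw [h, sum_single_eq_one x hx i]
  -- existence of a point over `x i`
  have hex : ∀ i, ∃ P, sp P = x i ∧ E P ≠ 0 := by
    intro i
    by_contra hcon
    push Not at hcon
    have h0 : Finsupp.mapDomain sp E (x i) = 0 := by
      rw [mapDomain_apply_eq sp E (x i) E.support subset_rfl]
      refine Finset.sum_eq_zero fun Q _ => ?_
      split_ifs with hQ
      · exact hcon Q hQ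
      · rfl
    rw [hval i] at h0
    exact one_ne_zero h0
  choose P hP hPE using hex
  have hpos : ∀ Q, E Q ≠ 0 → 1 ≤ E Q := fun Q hQ => by
    have := hE Q
    have h0 : (0 : α →₀ ℤ) Q = 0 := rfl
    rw [h0] at this
    omega
  have huniq : ∀ i Q, sp Q = x i → E Q ≠ 0 → Q = P i := by
    intro i Q hQ hQE
    by_contra hne
    have h1 := add_le_mapDomain sp E (x i) (hnn _) Q (P i) hQ (hP i) hne
    rw [hval i] at h1
    have := hpos Q hQE
    have := hpos (P i) (hPE i)
    omega
  have hone : ∀ i, E (P i) = 1 := by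
    intro i
    have h1 := le_mapDomain sp E (x i) (hnn _) (P i) (hP i)
    rw [hval i] at h1
    have := hpos (P i) (hPE i)
    omega
  have hPinj : Function.Injective P := by
    intro i j hij
    apply hx
    rw [← hP i, ← hP j, hij]
  refine ⟨P, hP, ?_⟩
  ext Q
  by_cases hQ : ∃ i, Q = P i
  · obtain ⟨i, rfl⟩ := hQ
    rw [hone i, sum_single_eq_one P hPinj i]
  · push Not at hQ
    rw [sum_single_eq_zero P Q hQ]
    by_contra hQE
    have h1 := le_mapDomain sp E (sp Q) (hnn _) Q rfl
    have h2 := hpos Q hQE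
    by_cases hy : ∃ i, sp Q = x i
    · obtain ⟨i, hi⟩ := hy
      exact hQ i (huniq i Q hi hQE)
    · push Not at hy
      rw [h, sum_single_eq_zero x (sp Q) hy] at h1
      omega

theorem lift_unique (sp : α → β) {g : ℕ} (x : Fin g → β) (hx : Function.Injective x)
    (P P' : Fin g → α) (hP : ∀ i, sp (P i) = x i) (hP' : ∀ i, sp (P' i) = x i)
    (h : (∑ i, Finsupp.single (P i) (1 : ℤ)) = ∑ i, Finsupp.single (P' i) (1 : ℤ)) : P = P' := by
  funext i
  have h1 := one_le_sum_single P i
  rw [h] at h1
  by_contra hne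
  by_cases hj : ∃ j, P i = P' j
  · obtain ⟨j, hj⟩ := hj
    have h2 : x i = x j := by rw [← hP i, hj, hP' j]
    have h3 := hx h2
    subst h3
    exact hne hj
  · push Not at hj
    rw [sum_single_eq_zero P' (P i) hj] at h1
    omega

end Comb

/-- **FFA-1.** -/
theorem stmt_Comb : Stmt_Comb := by
  intro K F k κ _ _ _ _ _ _ sp
  refine ⟨fun E hE => Comb.mapDomain_nonneg sp E hE, fun E E' => ⟨Finsupp.mapDomain_add, ?_⟩,
    fun g P => ?_, fun g P => ⟨fun Q => Comb.sum_single_nonneg P Q,
      fun Q hQ => Comb.sum_single_eq_zero P Q hQ, fun i => Comb.one_le_sum_single P i⟩,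
    fun g x hx E hE h => Comb.exists_lift sp x hx E hE h,
    fun g x hx P P' hP hP' h => Comb.lift_unique sp x hx P P' hP hP' h,
    fun E y h => ⟨fun P hP => Comb.le_mapDomain sp E y h P hP,
      fun P P' hP hP' hne => Comb.add_le_mapDomain sp E y h P P' hP hP' hne⟩⟩
  · exact map_sub (Finsupp.mapDomain.addMonoidHom sp) E E'
  · unfold push sumPl
    rw [Finsupp.mapDomain_finsetSum]
    exact Finset.sum_congr rfl fun i _ => Finsupp.mapDomain_single

/-- the name used in the task list. -/
theorem comb : Stmt_Comb := stmt_Comb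

end Fermat.Agent.FF19.A

end
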