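import Fermat.Agent.FF19.A.Interface
import Fermat.Agent.RED.EvBasic
import Fermat.Agent.S27.R0
import Fermat.Agent.S27.RA
import Fermat.Agent.S27.RB
import Fermat.Agent.S27.RC
import Fermat.Agent.S27.RD

/-!
# FF19 / A : FFA-11, `Stmt_CurveFacts` (instantiation of S27: principal divisors, Riemann)
-/

set_option autoImplicit false

noncomputable section

namespace Fermat.Agent.FF19.A

open AlgebraicCurve
open Fermat.Agent.INJ (RedData)
open Fermat.Agent.RED (Ev)

/-- **FFA-11** : the facts on the curve, for a function field of one variable over an algebraically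
closed field of characteristic zero. -/
theorem curveFacts : Stmt_CurveFacts := by
  intro K F _ _ _ _ _ x hx hfin
  have hFF : S27.IsFF K F := ⟨x, hx, hfin⟩
  have hR0 : S27.Stmt_R0.{0, 0} := S27.r0
  have hRA : S27.Stmt_RA.{0, 0} := S27.ra hR0
  have hRD : S27.Stmt_RD.{0, 0} := S27.rd hR0 hRA (S27.rb hR0) (S27.rc hR0 hRA)
  obtain ⟨hP, hdeg, -, -, -⟩ := hR0 K F hFF
  obtain ⟨-, hRR, -, -⟩ := hRD K F hFF
  refine ⟨fun f hf => ?_, hdeg, fun P f hf => RED.ev_exists x hx hf, fun E hE => ?_⟩
  · obtain ⟨D, h1, h2⟩ := hP.exists_divisor f hf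
    exact ⟨D, h1, h2⟩
  · have h := hRR E
    have hpos : 0 < Module.finrank K (riemannRochSpace E) := by
      have h0 : (0 : ℤ) ≤ Module.finrank K (H1 E) := Int.natCast_nonneg _
      omega
    have hnt : Nontrivial (riemannRochSpace E) := Module.nontrivial_of_finrank_pos hpos
    obtain ⟨⟨f, hf⟩, hne⟩ := exists_ne (0 : riemannRochSpace E)
    refine ⟨f, fun h0 => hne (Subtype.ext h0), fun P => ?_⟩
    rcases mem_riemannRochSpace_iff.1 hf P with h0 | h0
    · exact absurd (Subtype.ext h0) hne
    · omega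

end Fermat.Agent.FF19.A

end
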