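import Fermat.Agent.INJ.Defs
import Fermat.Agent.RED.Defs

/-!
# FF19 / A : CLAIM A, the parametrisation of the kernel of reduction `J¹` (architect helper36)

ABSTRACT SETTING.  `F / K` a function field (`K` algebraically closed), `D : INJ.RedData K F k κ` a reduction
datum (`D.A` valuation ring of `K`, `D.O` = Gauss valuation ring `W` of `F`, `D.rd : F → κ`),
`sp : Place K F → Place k κ` the specialisation map of places.

* `SpData D sp`   (block G0) : `div (rd f) = sp_* (div f)` for `f ∈ Wˣ`.
* `CurveFacts K F g` (S27)   : principal divisors, places of degree one, residue field `K`, Riemann.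
* `Base D sp x P0`  (block NS + LIFT of G0) : `x i` (`i < g`) distinct places of `κ` with
  `L(∑ x i) = k`, `P0 i` a place above `x i`.
* `Rep sp x P0 z P` : `z = [∑ P i - ∑ P0 i]`, `sp (P i) = x i`.

CLAIM A : `z ∈ J¹` iff `z` has a representation `Rep`, and the representation is unique; `J¹ ≃ ∏ disc (x i)`.
-/

set_option autoImplicit false

noncomputable section

namespace Fermat.Agent.FF19.A

open AlgebraicCurve
open Fermat.Agent.INJ (RedData)
open Fermat.Agent.RED (Ev)

section Defs

variable {K F k κ : Type*} [Field K] [Field F] [Algebra K F] [Field k] [Field κ] [Algebra k κ]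

/-- the divisor `∑ i, P i`. -/
def sumPl {g : ℕ} (P : Fin g → Place K F) : Divisor K F := ∑ i, Finsupp.single (P i) (1 : ℤ)

/-- push forward of divisors. -/
def push (sp : Place K F → Place k κ) (E : Divisor K F) : Divisor k κ := Finsupp.mapDomain sp E

/-- `E = div f`. -/
def IsDivOf (E : Divisor K F) (f : F) : Prop := ∀ P : Place K F, E P = P.ord f

/-- **(SP)** [block G0]: `div (rd f) = sp_* (div f)` for `f ∈ Wˣ`. -/
def SpData (D : RedData K F k κ) (sp : Place K F → Place k κ) : Prop :=
  ∀ (f : F) (E : Divisor K F), D.rd f ≠ 0 → IsDivOf E f →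
    ∀ y : Place k κ, push sp E y = y.ord (D.rd f)

/-- the facts on the curve `F / K` of genus `g` which are used. -/
structure CurveFacts (K F : Type*) [Field K] [Field F] [Algebra K F] (g : ℕ) : Prop where
  princ : ∀ f : F, f ≠ 0 → ∃ E : Divisor K F, IsDivOf E f ∧ Divisor.degree E = 0
  deg1 : ∀ P : Place K F, P.deg = 1
  resK : ∀ (P : Place K F) (f : F), f ∈ P.toValuationSubring → ∃ c : K, Ev P f c
  eff : ∀ E : Divisor K F, (g : ℤ) ≤ Divisor.degree E →
    ∃ f : F, f ≠ 0 ∧ ∀ P : Place K F, 0 ≤ E P + P.ord f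

/-- the base divisor: `x i` distinct, `L(∑ x i) = k`, `P0 i` above `x i`, and `sp` is not concentrated on
the `x i`. -/
structure Base (sp : Place K F → Place k κ) {g : ℕ} (x : Fin g → Place k κ)
    (P0 : Fin g → Place K F) : Prop where
  inj : Function.Injective x
  sp0 : ∀ i, sp (P0 i) = x i
  ns : ∀ h : κ, h ≠ 0 → (∀ y : Place k κ, 0 ≤ sumPl x y + y.ord h) → ∃ c : k, h = algebraMap k κ c
  out : ∃ Q : Place K F, ∀ i, sp Q ≠ x i

/-- `z ∈ J¹` : `z` is the class of a divisor of degree `0` with trivial specialisation. -/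
def InJ1 (sp : Place K F → Place k κ) (z : Pic0 K F) : Prop :=
  ∃ E : Divisor.degZero (K := K) (F := F), push sp E.1 = 0 ∧ Pic0.mk E = z

/-- `z = [∑ P i - ∑ P0 i]` with `sp (P i) = x i`. -/
def Rep (sp : Place K F → Place k κ) {g : ℕ} (x : Fin g → Place k κ) (P0 : Fin g → Place K F)
    (z : Pic0 K F) (P : Fin g → Place K F) : Prop :=
  (∀ i, sp (P i) = x i) ∧
    ∃ E : Divisor.degZero (K := K) (F := F), E.1 = sumPl P - sumPl P0 ∧ Pic0.mk E = z

/-- the coordinate `t` at the points `x i`: `t` is regular on the residue disc of `x i`, with values in `A`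
reducing to `cb i`, and `rd t - cb i` is a uniformiser at `x i`. -/
structure Coord (D : RedData K F k κ) (sp : Place K F → Place k κ) {g : ℕ} (x : Fin g → Place k κ)
    (t : F) (cb : Fin g → k) : Prop where
  t_mem : t ∈ D.O
  ev : ∀ (i : Fin g) (P : Place K F), sp P = x i → ∃ c ∈ D.A, Ev P t c ∧ D.ra c = cb i
  unr : ∀ i, (x i).ord (D.rd t - algebraMap k κ (cb i)) = 1

/-- `c i` is the value of `t` at `P i`. -/
def IsVal {g : ℕ} (t : F) (P : Fin g → Place K F) (c : Fin g → K) : Prop := ∀ i, Ev (P i) t (c i)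

end Defs

end Fermat.Agent.FF19.A

end
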