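import Fermat.Agent.FF19.A.GeoOut
import Fermat.Agent.FF19.Top.Interface

/-!
# FF19 / A : `Top.Stmt_Geo M l` from ONE package of facts at level `M` (helper36)

`GeoPack M A` lists exactly what the geometric blocks (G0, NS, L) and the concrete Galois layer have to deliver at level
`M` for the valuation ring `A`; block A does the rest.
-/

set_option autoImplicit false
set_option synthInstance.maxHeartbeats 400000

noncomputable section

namespace Fermat.Agent.FF19.A

open AlgebraicCurve ModularCurve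
open Fermat.Agent.INJ (RedData)
open Fermat.Agent.RED (Ev Qb GQ FF Pl)

/-- everything that is needed at level `M`. -/
structure GeoPack (M : ℕ) (A : ValuationSubring Qb) {k κ : Type} [Field k] [Field κ] [Algebra k κ]
    (D : RedData Qb (FF M) k κ) (sp : Pl M → Place k κ) (g : ℕ) (x : Bool → Fin g → Place k κ)
    (P0 : Bool → Fin g → Pl M) (t : FF M) (cb : Bool → Fin g → k) (val : Pl M → Qb) : Prop where
  hA : D.A = A
  /-- G0 -/
  spData : SpData D sp
  /-- S27 (`all_CurveFacts`) -/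
  curve : CurveFacts Qb (FF M) g
  /-- NS + LIFT -/
  base : ∀ c, Base sp (x c) (P0 c)
  /-- G0 -/
  coord : ∀ c, Coord D sp (x c) t (cb c)
  val_ev : ∀ c i P, sp P = x c i → Ev P t (val P)
  /-- L -/
  law : LawHyp D sp x P0 val
  /-- inertia does not move the reduction -/
  sp_gal : ∀ σ ∈ A.inertiaSubgroupIn ℚ, ∀ P : Pl M, sp (RED.gal M σ • P) = sp P
  t_gal : ∀ σ ∈ A.inertiaSubgroupIn ℚ, RED.gal M σ • t = t
  P0_gal : ∀ σ ∈ A.inertiaSubgroupIn ℚ, ∀ c i, RED.gal M σ • P0 c i = P0 c i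
  lift : ∀ P : Pl M, ∃ Q : Pl M, (∀ σ ∈ A.inertiaSubgroupIn ℚ, RED.gal M σ • Q = Q) ∧ sp P = sp Q

theorem GM_dlM (M : ℕ) : Top.dlM M = dlF (K := Qb) (F := FF M) := rfl

/-- **`Top.Stmt_Geo M l` from `GeoPack`.** -/
theorem stmt_Geo_of_pack (M l : ℕ)
    (h : ∀ A : ValuationSubring Qb, A.LiesOverPrime l →
      ∃ (k κ : Type) (_ : Field k) (_ : Field κ) (_ : Algebra k κ) (D : RedData Qb (FF M) k κ)
        (sp : Pl M → Place k κ) (g : ℕ) (x : Bool → Fin g → Place k κ) (P0 : Bool → Fin g → Pl M)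
        (t : FF M) (cb : Bool → Fin g → k) (val : Pl M → Qb), GeoPack M A D sp g x P0 t cb val) :
    Top.Stmt_Geo M l := by
  intro A hA
  obtain ⟨k, κ, _, _, _, D, sp, g, x, P0, t, cb, val, H⟩ := h A hA
  refine ⟨g, DscF sp, val, P0, ?_, ?_⟩
  · have := geoOut D sp x P0 t cb val H.spData H.curve H.base H.coord H.val_ev H.law
    rw [H.hA] at this
    exact this
  · let _ := Top.plAct M A
    exact galOut (Γ := Top.Ine A) (fun σ => RED.gal M σ.1) (fun σ P => rfl) (fun σ z => rfl)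
      (fun σ a => by rw [baseAut_arithmeticGalois]; rfl) H.curve.deg1 sp x P0 t val
      (fun c i => (H.base c).sp0 i) H.val_ev (fun σ P => H.sp_gal σ.1 σ.2 P)
      (fun σ => H.t_gal σ.1 σ.2) (fun σ c i => H.P0_gal σ.1 σ.2 c i)
      (fun P => by
        obtain ⟨Q, hQ, hPQ⟩ := H.lift P
        exact ⟨Q, fun σ => hQ σ.1 σ.2, hPQ⟩)

end Fermat.Agent.FF19.A

end
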