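import Fermat.Agent.FF19.A.GeoOut2
import Fermat.Agent.FF19.A.GeoM

/-!
# FF19 / A : `Top.Stmt_Geo M l` from `Law.GeoData` at level `M` + the Galois layer (helper36)
-/

set_option autoImplicit false
set_option synthInstance.maxHeartbeats 400000

noncomputable section

namespace Fermat.Agent.FF19.A

open AlgebraicCurve ModularCurve
open Fermat.Agent.INJ (RedData)
open Fermat.Agent.RED (Ev Qb GQ FF Pl)

/-- everything that is needed at level `M`: `Law.GeoData` (blocks G0, NS, KAP = block GD) + the Galois layer. -/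
structure GeoPack2 (M : ℕ) (A : ValuationSubring Qb) {k κ : Type} [Field k] [Field κ] [Algebra k κ]
    (D : RedData Qb (FF M) k κ) (sp : Pl M → Place k κ) (g s : ℕ) (t : FF M)
    (Einf : Divisor Qb (FF M)) (w w' : Fin g → Fin (s + 1) → Place k κ) (cb cb' : Fin g → k)
    (P0 Q0 : Fin g → Pl M) : Prop where
  hA : D.A = A
  /-- block GD -/
  geo : Law.GeoData D sp g s t Einf w w' cb cb' P0 Q0
  /-- inertia does not move the reduction -/
  sp_gal : ∀ σ ∈ A.inertiaSubgroupIn ℚ, ∀ P : Pl M, sp (RED.gal M σ • P) = sp P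
  t_gal : ∀ σ ∈ A.inertiaSubgroupIn ℚ, RED.gal M σ • t = t
  P0_gal : ∀ σ ∈ A.inertiaSubgroupIn ℚ, ∀ i, RED.gal M σ • P0 i = P0 i
  Q0_gal : ∀ σ ∈ A.inertiaSubgroupIn ℚ, ∀ i, RED.gal M σ • Q0 i = Q0 i
  lift : ∀ P : Pl M, ∃ Q : Pl M, (∀ σ ∈ A.inertiaSubgroupIn ℚ, RED.gal M σ • Q = Q) ∧ sp P = sp Q

/-- **`Top.Stmt_Geo M l` from `GeoPack2`.** -/
theorem stmt_Geo_of_pack2 (hGC : Law.Stmt_GeoCoord) (hCE : Law.Stmt_CoEx) (hAQ : Law.Stmt_ArchQ)
    (M l : ℕ) (hl : l.Prime)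
    (h : ∀ A : ValuationSubring Qb, A.LiesOverPrime l →
      ∃ (k κ : Type) (_ : Field k) (_ : Field κ) (_ : Algebra k κ) (D : RedData Qb (FF M) k κ)
        (sp : Pl M → Place k κ) (g s : ℕ) (t : FF M) (Einf : Divisor Qb (FF M))
        (w w' : Fin g → Fin (s + 1) → Place k κ) (cb cb' : Fin g → k) (P0 Q0 : Fin g → Pl M),
        GeoPack2 M A D sp g s t Einf w w' cb cb' P0 Q0) :
    Top.Stmt_Geo M l := by
  intro A hA
  obtain ⟨k, κ, _, _, _, D, sp, g, s, t, Einf, w, w', cb, cb', P0, Q0, H⟩ := h A hA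
  have hArch : Law.Arch D.A := by
    rw [H.hA]
    have : Algebra.IsAlgebraic ℚ Qb := AlgebraicClosure.isAlgebraic ℚ
    exact hAQ Qb A l hl hA
  have hG := H.geo
  refine ⟨g, DscF sp, fun P => Law.val P t, GO2_P P0 Q0, ?_, ?_⟩
  · have := geoOut_of_geoData hGC hCE D sp g s t Einf w w' cb cb' P0 Q0 hArch hG
    rw [H.hA] at this
    exact this
  · let _ := Top.plAct M A
    have h0 : ∀ c i, sp (GO2_P P0 Q0 c i) = GO2_x w w' c i := by
      intro c i
      cases c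
      · exact hG.base.sp0 i
      · exact hG.base'.sp0 i
    have hval : ∀ c i P, sp P = GO2_x w w' c i → Ev P t (Law.val P t) := by
      intro c i P hP
      cases c
      · obtain ⟨a, -, ha, -⟩ := hG.fib.reg i 0 P hP
        rw [Law.val_eq ha]
        exact ha
      · obtain ⟨a, -, ha, -⟩ := hG.fib'.reg i 0 P hP
        rw [Law.val_eq ha]
        exact ha
    exact galOut (Γ := Top.Ine A) (fun σ => RED.gal M σ.1) (fun σ P => rfl) (fun σ z => rfl)
      (fun σ a => by rw [baseAut_arithmeticGalois]; rfl) hG.cf.deg1 sp (GO2_x w w') (GO2_P P0 Q0) t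
      (fun P => Law.val P t) h0 hval (fun σ P => H.sp_gal σ.1 σ.2 P)
      (fun σ => H.t_gal σ.1 σ.2)
      (fun σ c i => by
        cases c
        · exact H.P0_gal σ.1 σ.2 i
        · exact H.Q0_gal σ.1 σ.2 i)
      (fun P => by
        obtain ⟨Q, hQ, hPQ⟩ := H.lift P
        exact ⟨Q, fun σ => hQ σ.1 σ.2, hPQ⟩)

end Fermat.Agent.FF19.A

end
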