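import Fermat.Agent.FF19.A.All
import Fermat.Agent.FF19.Top.Defs
import Fermat.Agent.FF19.Law.Defs

/-!
# FF19 / A : the adapter  block A (+ `Law.LawConcl`)  ⟹  `Top.GeoOut`  (helper36)

ABSTRACT in `(K, F, k, κ, D, sp)`.  `Dsc P P' := sp P = sp P'`, `dlF P P'` = the class of `P - P'` (the same `if` as
`Top.dlM`), `J1sub sp` = the subgroup `{z | InJ1 sp z}` of `Pic⁰`.
-/

set_option autoImplicit false

noncomputable section

namespace Fermat.Agent.FF19.A

open AlgebraicCurve
open Fermat.Agent.INJ (RedData)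
open Fermat.Agent.RED (Ev)

section GO

variable {K F k κ : Type} [Field K] [Field F] [Algebra K F] [Field k] [Field κ] [Algebra k κ]

open Classical in
/-- the class of `P - P'`. -/
def dlF (P P' : Place K F) : Pic0 K F :=
  if h : (Finsupp.single P (1 : ℤ) - Finsupp.single P' (1 : ℤ) : Divisor K F) ∈
      Divisor.degZero (K := K) (F := F) then Pic0.mk ⟨_, h⟩ else 0

/-- "same reduction". -/
def DscF (sp : Place K F → Place k κ) (P P' : Place K F) : Prop := sp P = sp P'

theorem GO_mem (hdeg : ∀ P : Place K F, P.deg = 1) (P P' : Place K F) :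
    (Finsupp.single P (1 : ℤ) - Finsupp.single P' (1 : ℤ) : Divisor K F) ∈
      Divisor.degZero (K := K) (F := F) := by
  rw [Divisor.mem_degZero, map_sub, Divisor.degree_single, Divisor.degree_single, hdeg, hdeg]
  simp

theorem GO_dlF (hdeg : ∀ P : Place K F, P.deg = 1) (P P' : Place K F) :
    dlF P P' = Pic0.mk ⟨_, GO_mem hdeg P P'⟩ := by
  unfold dlF
  rw [dif_pos (GO_mem hdeg P P')]

theorem GO_dl_add (hdeg : ∀ P : Place K F, P.deg = 1) (P P' P'' : Place K F) :
    dlF P P'' = dlF P P' + dlF P' P'' := by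
  rw [GO_dlF hdeg, GO_dlF hdeg, GO_dlF hdeg, ← Pic0.mk_add]
  congr 1
  apply Subtype.ext
  push_cast
  abel

/-- `mk` as a homomorphism. -/
def GO_mkHom : Divisor.degZero (K := K) (F := F) →+ Pic0 K F := QuotientAddGroup.mk' _

theorem GO_mkHom_apply (E : Divisor.degZero (K := K) (F := F)) : GO_mkHom E = Pic0.mk E := rfl

theorem GO_sum_dlF (hdeg : ∀ P : Place K F, P.deg = 1) {g : ℕ} (P P0 : Fin g → Place K F)
    (E : Divisor.degZero (K := K) (F := F)) (hE : E.1 = sumPl P - sumPl P0) :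
    ∑ i, dlF (P i) (P0 i) = Pic0.mk E := by
  have h1 : ∀ i, dlF (P i) (P0 i) = GO_mkHom ⟨_, GO_mem hdeg (P i) (P0 i)⟩ := fun i =>
    GO_dlF hdeg _ _
  rw [Finset.sum_congr rfl fun i _ => h1 i, ← map_sum, GO_mkHom_apply]
  congr 1
  apply Subtype.ext
  rw [hE]
  push_cast
  unfold sumPl
  rw [Finset.sum_sub_distrib]

theorem GO_mem_sum (hdeg : ∀ P : Place K F, P.deg = 1) {g : ℕ} (P P0 : Fin g → Place K F) :
    sumPl P - sumPl P0 ∈ Divisor.degZero (K := K) (F := F) := by
  rw [Divisor.mem_degZero, map_sub, EX_degree_sumPl hdeg, EX_degree_sumPl hdeg, sub_self]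

/-- `Top.Rep ↔ A.Rep`. -/
theorem GO_rep_iff (hdeg : ∀ P : Place K F, P.deg = 1) (sp : Place K F → Place k κ) {g : ℕ}
    (x : Bool → Fin g → Place k κ) (P0 : Bool → Fin g → Place K F) (h0 : ∀ c i, sp (P0 c i) = x c i)
    (c : Bool) (z : Pic0 K F) (P : Fin g → Place K F) :
    Top.Rep dlF (DscF sp) P0 c z P ↔ Rep sp (x c) (P0 c) z P := by
  constructor
  · rintro ⟨h1, h2⟩
    refine ⟨fun i => (h1 i).trans (h0 c i), ⟨_, GO_mem_sum hdeg P (P0 c)⟩, rfl, ?_⟩
    rw [h2, GO_sum_dlF hdeg P (P0 c) ⟨_, GO_mem_sum hdeg P (P0 c)⟩ rfl]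
  · rintro ⟨h1, E, hE, hz⟩
    refine ⟨fun i => (h1 i).trans (h0 c i).symm, ?_⟩
    rw [← hz, GO_sum_dlF hdeg P (P0 c) E hE]

/-- the kernel of reduction as a subgroup. -/
def J1sub (sp : Place K F → Place k κ) : AddSubgroup (Pic0 K F) where
  carrier := {z | InJ1 sp z}
  zero_mem' := (all_Add K F k κ sp 0 Fin.elim0 Fin.elim0 (fun i => i.elim0)).2.1
  add_mem' := fun {a b} ha hb =>
    ((all_Add K F k κ sp 0 Fin.elim0 Fin.elim0 (fun i => i.elim0)).1 a b ha hb).1
  neg_mem' := fun {a} ha =>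
    ((all_Add K F k κ sp 0 Fin.elim0 Fin.elim0 (fun i => i.elim0)).1 a a ha ha).2

theorem mem_J1sub (sp : Place K F → Place k κ) (z : Pic0 K F) : z ∈ J1sub sp ↔ InJ1 sp z := Iff.rfl

theorem GO_dlF_mem (hdeg : ∀ P : Place K F, P.deg = 1) (sp : Place K F → Place k κ)
    (P P' : Place K F) (h : sp P = sp P') : InJ1 sp (dlF P P') := by
  refine ⟨⟨_, GO_mem hdeg P P'⟩, ?_, (GO_dlF hdeg P P').symm⟩
  show push sp (Finsupp.single P (1 : ℤ) - Finsupp.single P' (1 : ℤ)) = 0
  rw [((all_Comb K F k κ sp).2.1 _ _).2]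
  unfold push
  rw [Finsupp.mapDomain_single, Finsupp.mapDomain_single, h, sub_self]

theorem GO_J1_le (hdeg : ∀ P : Place K F, P.deg = 1) (sp : Place K F → Place k κ) :
    Top.J1 dlF (DscF sp) ≤ J1sub sp := by
  unfold Top.J1
  rw [AddSubgroup.closure_le]
  rintro z ⟨P, P', h, rfl⟩
  exact GO_dlF_mem hdeg sp P P' h

/-- `Top.J1 = J1sub` as soon as there is a base. -/
theorem GO_J1_eq (D : RedData K F k κ) (sp : Place K F → Place k κ) {g : ℕ}
    (x : Fin g → Place k κ) (P0 : Fin g → Place K F) (hSp : SpData D sp) (hCF : CurveFacts K F g)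
    (hB : Base sp x P0) : Top.J1 dlF (DscF sp) = J1sub sp := by
  apply le_antisymm (GO_J1_le hCF.deg1 sp)
  intro z hz
  obtain ⟨P, hP, E, hE, rfl⟩ := ((all_Param K F k κ D sp g x P0 hSp hCF hB).1 z).1 hz
  rw [← GO_sum_dlF hCF.deg1 P P0 E hE]
  refine AddSubgroup.sum_mem _ fun i _ => AddSubgroup.subset_closure ⟨P i, P0 i, ?_, rfl⟩
  exact (hP i).trans (hB.sp0 i).symm

theorem GO_dl_gen (hdeg : ∀ P : Place K F, P.deg = 1) :
    AddSubgroup.closure {x : Pic0 K F | ∃ P P' : Place K F, x = dlF P P'} = ⊤ := by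
  rw [eq_top_iff]
  intro z _
  obtain ⟨E, rfl⟩ := Pic0.mk_surjective z
  by_cases hne : Nonempty (Place K F)
  · obtain ⟨Q0⟩ := hne
    set H := AddSubgroup.closure {x : Pic0 K F | ∃ P P' : Place K F, x = dlF P P'} with hH
    let ψ0 : Divisor K F →+ Divisor K F :=
      AddMonoidHom.id _ - (Finsupp.singleAddHom Q0).comp Divisor.degree
    have hψ0 : ∀ E : Divisor K F, ψ0 E ∈ Divisor.degZero (K := K) (F := F) := by
      intro E
      rw [Divisor.mem_degZero]
      show Divisor.degree (E - Finsupp.single Q0 (Divisor.degree E)) = 0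
      rw [map_sub, Divisor.degree_single, hdeg]
      simp
    let ψ : Divisor K F →+ Divisor.degZero (K := K) (F := F) := ψ0.codRestrict _ hψ0
    have key : ∀ E : Divisor K F, GO_mkHom (ψ E) ∈ H := by
      intro E
      induction E using Finsupp.induction_linear with
      | zero => rw [map_zero, map_zero]; exact H.zero_mem
      | add a b ha hb => rw [map_add, map_add]; exact H.add_mem ha hb
      | single P n =>
        have h1 : (Finsupp.single P n : Divisor K F) = n • Finsupp.single P (1 : ℤ) := by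
          rw [Finsupp.smul_single, smul_eq_mul, mul_one]
        rw [h1, map_zsmul, map_zsmul]
        refine H.zsmul_mem (AddSubgroup.subset_closure ⟨P, Q0, ?_⟩) n
        rw [GO_dlF hdeg, GO_mkHom_apply]
        congr 1
        apply Subtype.ext
        show Finsupp.single P (1 : ℤ) - Finsupp.single Q0 (Divisor.degree (Finsupp.single P (1 : ℤ)))
          = _
        rw [Divisor.degree_single, hdeg]
        simp
    have h2 : ψ E.1 = E := by
      apply Subtype.ext
      show E.1 - Finsupp.single Q0 (Divisor.degree E.1) = E.1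
      have : Divisor.degree E.1 = 0 := E.2
      rw [this, Finsupp.single_zero, sub_zero]
    have := key E.1
    rwa [h2, GO_mkHom_apply] at this
  · have : E = 0 := by
      apply Subtype.ext
      ext P
      exact (hne ⟨P⟩).elim
    rw [this, Pic0.mk_zero]
    exact AddSubgroup.zero_mem _

/-- the LAW (output of block L, twice), in a form which does not depend on the way the coordinate functions are
defined outside / by choice. -/
def LawHyp (D : RedData K F k κ) (sp : Place K F → Place k κ) {g : ℕ} (x : Bool → Fin g → Place k κ)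
    (P0 : Bool → Fin g → Place K F) (val : Place K F → K) : Prop :=
  ∀ c : Bool, ∃ T T' : Fin g → Pic0 K F → K,
    (∀ z P i, Rep sp (x c) (P0 c) z P → T i z = val (P i) - val (P0 c i)) ∧
    (∀ z P i, Rep sp (x (!c)) (P0 (!c)) z P → T' i z = val (P i) - val (P0 (!c) i)) ∧
    Law.LawConcl D.A (J1sub sp) g T T'

/-- **block A (+ LAW) ⟹ `Top.GeoOut`.** -/
theorem geoOut (D : RedData K F k κ) (sp : Place K F → Place k κ) {g : ℕ}
    (x : Bool → Fin g → Place k κ) (P0 : Bool → Fin g → Place K F) (t : F) (cb : Bool → Fin g → k)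
    (val : Place K F → K) (hSp : SpData D sp) (hCF : CurveFacts K F g)
    (hB : ∀ c, Base sp (x c) (P0 c)) (hCo : ∀ c, Coord D sp (x c) t (cb c))
    (hval : ∀ c i P, sp P = x c i → Ev P t (val P)) (hlaw : LawHyp D sp x P0 val) :
    Top.GeoOut D.A.toSubring dlF (DscF sp) val P0 where
  dl_add := GO_dl_add hCF.deg1
  dl_gen := GO_dl_gen hCF.deg1
  dsc_refl := fun _ => rfl
  dsc_symm := fun _ _ h => h.symm
  dsc_trans := fun _ _ _ h h' => h.trans h'
  val_mem := by
    intro c i P h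
    have h1 : sp P = x c i := h.trans ((hB c).sp0 i)
    have h2 := ((all_TInj K F k κ D sp g (x c) t (cb c) hSp hCF (hCo c)).2 i P (P0 c i) _ _ h1
      ((hB c).sp0 i) (hval c i P h1) (hval c i _ ((hB c).sp0 i))).2
    exact D.A.nonunits_subset h2
  val_inj := by
    intro c i P P' h h' hv
    have h1 : sp P = x c i := h.trans ((hB c).sp0 i)
    have h1' : sp P' = x c i := h'.trans ((hB c).sp0 i)
    refine (all_TInj K F k κ D sp g (x c) t (cb c) hSp hCF (hCo c)).1 i P P' (val P) h1 h1'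
      (hval c i P h1) ?_
    rw [hv]
    exact hval c i P' h1'
  exA := by
    intro c z hz
    obtain ⟨P, hP⟩ := ((all_Param K F k κ D sp g (x c) (P0 c) hSp hCF (hB c)).1 z).1
      (GO_J1_le hCF.deg1 sp hz)
    exact ⟨P, (GO_rep_iff hCF.deg1 sp x P0 (fun c i => (hB c).sp0 i) c z P).2 hP⟩
  uniqA := by
    intro c z P P' h h'
    exact all_Uniq K F k κ D sp g (x c) (P0 c) hSp hCF (hB c) z P P'
      ((GO_rep_iff hCF.deg1 sp x P0 (fun c i => (hB c).sp0 i) c z P).1 h)
      ((GO_rep_iff hCF.deg1 sp x P0 (fun c i => (hB c).sp0 i) c z P').1 h')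
  law := by
    rintro S S' hS hS' hSJ hSJ' ⟨c, i⟩
    obtain ⟨T, T', hT, hT', hL⟩ := hlaw c
    obtain ⟨Ψ, hΨ⟩ := hL hS.toFinset hS'.toFinset
      (fun z hz => GO_J1_le hCF.deg1 sp (hSJ (hS.mem_toFinset.1 hz)))
      (fun z hz => GO_J1_le hCF.deg1 sp (hSJ' (hS'.mem_toFinset.1 hz))) i
    refine ⟨MvPolynomial.rename (Sum.map (fun a => (c, a)) (fun a => (!c, a))) Ψ, ?_⟩
    intro z hz w hw τz τw τs hτz hτw hτs
    have hr := GO_rep_iff hCF.deg1 sp x P0 (fun c i => (hB c).sp0 i)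
    obtain ⟨Ps, hPs, hs⟩ := hτs c
    obtain ⟨Pz, hPz, hz'⟩ := hτz c
    obtain ⟨Pw, hPw, hw'⟩ := hτw (!c)
    have e1 : τs (c, i) = T i (z + w) := by
      rw [hs i, hT _ Ps i ((hr c _ Ps).1 hPs)]
    have e2 : (Sum.elim τz τw ∘ Sum.map (fun a => (c, a)) (fun a => (!c, a))) =
        Sum.elim (fun j => T j z) (fun j => T' j w) := by
      funext a
      rcases a with a | a
      · simp only [Function.comp, Sum.map_inl, Sum.elim_inl]
        rw [hz' a, hT _ Pz a ((hr c _ Pz).1 hPz)]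
      · simp only [Function.comp, Sum.map_inr, Sum.elim_inr]
        rw [hw' a, hT' _ Pw a ((hr (!c) _ Pw).1 hPw)]
    rw [e1, hΨ z (hS.mem_toFinset.2 hz) w (hS'.mem_toFinset.2 hw)]
    erw [MvPolynomial.aeval_rename]
    rw [e2]
    rfl

theorem GO_dlF_smul (hdeg : ∀ P : Place K F, P.deg = 1) (s : SemilinearAut K F)
    (P P' : Place K F) : s • dlF P P' = dlF (s • P) (s • P') := by
  rw [GO_dlF hdeg, GO_dlF hdeg, SemilinearAut.pic0_smul_mk]
  congr 1
  apply Subtype.ext
  rw [SemilinearAut.coe_degZeroSMulHom]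
  show s • (Finsupp.single P (1 : ℤ) - Finsupp.single P' (1 : ℤ) : Divisor K F) = _
  rw [smul_sub, SemilinearAut.smul_single, SemilinearAut.smul_single]

/-- **the Galois compatibilities ⟹ `Top.GalOut`** (abstract: `Γ` acts through `ρ : Γ → SemilinearAut K F`). -/
theorem galOut {Γ : Type} [Group Γ] [MulSemiringAction Γ K] [MulAction Γ (Place K F)]
    [DistribMulAction Γ (Pic0 K F)] (ρ : Γ → SemilinearAut K F)
    (h1 : ∀ (σ : Γ) (P : Place K F), σ • P = ρ σ • P)
    (h2 : ∀ (σ : Γ) (z : Pic0 K F), σ • z = ρ σ • z)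
    (h3 : ∀ (σ : Γ) (a : K), σ • a = SemilinearAut.baseAut (ρ σ) a)
    (hdeg : ∀ P : Place K F, P.deg = 1)
    (sp : Place K F → Place k κ) {g : ℕ}
    (x : Bool → Fin g → Place k κ) (P0 : Bool → Fin g → Place K F) (t : F)
    (val : Place K F → K) (h0 : ∀ c i, sp (P0 c i) = x c i)
    (hval : ∀ c i P, sp P = x c i → Ev P t (val P))
    (hsp : ∀ (σ : Γ) (P : Place K F), sp (ρ σ • P) = sp P)
    (ht : ∀ σ : Γ, ρ σ • t = t)
    (hP0 : ∀ (σ : Γ) c i, ρ σ • P0 c i = P0 c i)
    (hlift : ∀ P : Place K F, ∃ Q : Place K F, (∀ σ : Γ, ρ σ • Q = Q) ∧ sp P = sp Q) :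
    Top.GalOut Γ dlF (DscF sp) val P0 where
  dl_smul := by
    intro σ P P'
    rw [h2, h1, h1, GO_dlF_smul hdeg]
  dsc_smul := by
    intro σ P
    show sp (σ • P) = sp P
    rw [h1, hsp]
  val_smul := by
    intro σ c i P h
    have e1 : sp P = x c i := h.trans (h0 c i)
    have e2 : sp (ρ σ • P) = x c i := (hsp σ P).trans e1
    have e3 := RED.ev_smul (ρ σ) (hval c i P e1)
    rw [ht] at e3
    rw [h1, h3]
    exact RED.ev_unique (hval c i _ e2) e3
  P0_fix := by
    intro σ c i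
    rw [h1, hP0]
  lift := by
    intro P
    obtain ⟨Q, hQ, hPQ⟩ := hlift P
    exact ⟨Q, fun σ => by rw [h1, hQ], hPQ⟩

end GO

end Fermat.Agent.FF19.A

end
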