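import Fermat.Agent.FF19.A.GeoOut
import Fermat.Agent.FF19.Law.GeoInterface

/-!
# FF19 / A : `Law.GeoData` + `Law.Stmt_GeoCoord` ⟹ `Top.GeoOut`  (helper36)

The chart `false` is `(w · 0, P0, cb)`, the chart `true` is `(w' · 0, Q0, cb')`.
-/

set_option autoImplicit false

noncomputable section

namespace Fermat.Agent.FF19.A

open AlgebraicCurve
open Fermat.Agent.INJ (RedData)
open Fermat.Agent.RED (Ev)

section GO2

variable {K F k κ : Type} [Field K] [Field F] [Algebra K F] [Field k] [Field κ] [Algebra k κ]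

theorem GO2_J1 (sp : Place K F → Place k κ) : Law.J1 sp = J1sub sp := by
  ext z
  rw [Law.mem_J1, mem_J1sub]

/-- the LAW in the form of `Law.Coord` for the `2 g` coordinates. -/
def LawHyp2 (D : RedData K F k κ) (sp : Place K F → Place k κ) {g : ℕ} (x : Bool → Fin g → Place k κ)
    (P0 : Bool → Fin g → Place K F) (val : Place K F → K) : Prop :=
  ∃ T : Bool → Fin g → Pic0 K F → K,
    (∀ c z P i, Rep sp (x c) (P0 c) z P → T c i z = val (P i) - val (P0 c i)) ∧
    Law.Coord D.A (J1sub sp) (Sum.elim (T false) (T true) : Fin g ⊕ Fin g → Pic0 K F → K)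

/-- `Fin g ⊕ Fin g → Bool × Fin g`. -/
def GO2_e {g : ℕ} : Fin g ⊕ Fin g → Bool × Fin g := Sum.elim (fun i => (false, i)) (fun i => (true, i))

/-- **block A + `Law.Coord` ⟹ `Top.GeoOut`.** -/
theorem geoOut2 (D : RedData K F k κ) (sp : Place K F → Place k κ) {g : ℕ}
    (x : Bool → Fin g → Place k κ) (P0 : Bool → Fin g → Place K F) (t : F) (cb : Bool → Fin g → k)
    (val : Place K F → K) (hSp : SpData D sp) (hCF : CurveFacts K F g)
    (hB : ∀ c, Base sp (x c) (P0 c)) (hCo : ∀ c, Coord D sp (x c) t (cb c))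
    (hval : ∀ c i P, sp P = x c i → Ev P t (val P)) (hlaw : LawHyp2 D sp x P0 val) :
    Top.GeoOut D.A.toSubring dlF (DscF sp) val P0 where
  dl_add := GO_dl_add hCF.deg1
  dl_gen := GO_dl_gen hCF.deg1
  dsc_refl := fun _ => rfl
  dsc_symm := fun _ _ h => h.symm
  dsc_trans := fun _ _ _ h h' => h.trans h'
  val_mem := by
    intro c i P h
    have h1 : sp P = x c i := h.trans ((hB c).sp0 i)
    have h2 := ((all_TInj K F k κ D sp g (x c) t (cb c) hSp hCF (hCo c)).2 i P (P0 c i) _ _ h1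
      ((hB c).sp0 i) (hval c i P h1) (hval c i _ ((hB c).sp0 i))).2
    exact D.A.nonunits_subset h2
  val_inj := by
    intro c i P P' h h' hv
    have h1 : sp P = x c i := h.trans ((hB c).sp0 i)
    have h1' : sp P' = x c i := h'.trans ((hB c).sp0 i)
    refine (all_TInj K F k κ D sp g (x c) t (cb c) hSp hCF (hCo c)).1 i P P' (val P) h1 h1'
      (hval c i P h1) ?_
    rw [hv]
    exact hval c i P' h1'
  exA := by
    intro c z hz
    obtain ⟨P, hP⟩ := ((all_Param K F k κ D sp g (x c) (P0 c) hSp hCF (hB c)).1 z).1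
      (GO_J1_le hCF.deg1 sp hz)
    exact ⟨P, (GO_rep_iff hCF.deg1 sp x P0 (fun c i => (hB c).sp0 i) c z P).2 hP⟩
  uniqA := by
    intro c z P P' h h'
    exact all_Uniq K F k κ D sp g (x c) (P0 c) hSp hCF (hB c) z P P'
      ((GO_rep_iff hCF.deg1 sp x P0 (fun c i => (hB c).sp0 i) c z P).1 h)
      ((GO_rep_iff hCF.deg1 sp x P0 (fun c i => (hB c).sp0 i) c z P').1 h')
  law := by
    rintro S S' hS hS' hSJ hSJ' ⟨c, i⟩
    obtain ⟨T, hT, hL⟩ := hlaw
    obtain ⟨Ψ, hΨ⟩ := hL.law hS.toFinset hS'.toFinset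
      (fun z hz => GO_J1_le hCF.deg1 sp (hSJ (hS.mem_toFinset.1 hz)))
      (fun z hz => GO_J1_le hCF.deg1 sp (hSJ' (hS'.mem_toFinset.1 hz)))
      (if c = false then Sum.inl i else Sum.inr i)
    refine ⟨MvPolynomial.rename (Sum.map GO2_e GO2_e) Ψ, ?_⟩
    intro z hz w hw τz τw τs hτz hτw hτs
    have hr := GO_rep_iff hCF.deg1 sp x P0 (fun c i => (hB c).sp0 i)
    have key : ∀ (u : Pic0 K F) (τ : Bool × Fin g → K), Top.IsT dlF (DscF sp) val P0 u τ →
        ∀ c i, τ (c, i) = T c i u := by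
      intro u τ hτ c i
      obtain ⟨P, hP, h⟩ := hτ c
      rw [h i, hT c u P i ((hr c _ P).1 hP)]
    have e1 : τs (c, i) = (Sum.elim (T false) (T true) : Fin g ⊕ Fin g → Pic0 K F → K)
        (if c = false then Sum.inl i else Sum.inr i) (z + w) := by
      rw [key _ _ hτs]
      cases c <;> simp
    have e2 : (Sum.elim τz τw ∘ Sum.map GO2_e GO2_e) =
        Sum.elim (fun b => (Sum.elim (T false) (T true) : Fin g ⊕ Fin g → Pic0 K F → K) b z)
          (fun b => (Sum.elim (T false) (T true) : Fin g ⊕ Fin g → Pic0 K F → K) b w) := by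
      funext a
      rcases a with (a | a) | (a | a) <;>
        simp only [Function.comp, Sum.map_inl, Sum.map_inr, Sum.elim_inl, Sum.elim_inr, GO2_e]
      · exact key _ _ hτz _ _
      · exact key _ _ hτz _ _
      · exact key _ _ hτw _ _
      · exact key _ _ hτw _ _
    rw [e1, hΨ z (hS.mem_toFinset.2 hz) w (hS'.mem_toFinset.2 hw)]
    erw [MvPolynomial.aeval_rename]
    rw [e2]
    rfl

/-- the two charts of a `Law.GeoData`. -/
def GO2_x {g s : ℕ} (w w' : Fin g → Fin (s + 1) → Place k κ) (c : Bool) (i : Fin g) : Place k κ :=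
  bif c then w' i 0 else w i 0

/-- the base points of the two charts. -/
def GO2_P {g : ℕ} (P0 Q0 : Fin g → Place K F) (c : Bool) : Fin g → Place K F := bif c then Q0 else P0

/-- the values of the two charts. -/
def GO2_cb {g : ℕ} (cb cb' : Fin g → k) (c : Bool) : Fin g → k := bif c then cb' else cb

theorem GO2_coord (D : RedData K F k κ) (sp : Place K F → Place k κ) {g s : ℕ} (t : F)
    (w : Fin g → Fin (s + 1) → Place k κ) (cb : Fin g → k) (ht : t ∈ D.O)
    (h : Law.Fibres D sp t w cb) : Coord D sp (fun i => w i 0) t cb where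
  t_mem := ht
  ev := fun i P hP => h.reg i 0 P hP
  unr := fun i => h.unr i 0

/-- **`Law.GeoData` ⟹ `Top.GeoOut`** (`val P := Law.val P t`). -/
theorem geoOut_of_geoData (hGC : Law.Stmt_GeoCoord) (hCE : Law.Stmt_CoEx)
    (D : RedData K F k κ) (sp : Place K F → Place k κ) (g s : ℕ) (t : F) (Einf : Divisor K F)
    (w w' : Fin g → Fin (s + 1) → Place k κ) (cb cb' : Fin g → k) (P0 Q0 : Fin g → Place K F)
    (hArch : Law.Arch D.A) (hG : Law.GeoData D sp g s t Einf w w' cb cb' P0 Q0) :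
    Top.GeoOut D.A.toSubring dlF (DscF sp) (fun P => Law.val P t) (GO2_P P0 Q0) := by
  have hB : ∀ c, Base sp (GO2_x w w' c) (GO2_P P0 Q0 c) := by
    intro c
    cases c
    · exact hG.base
    · exact hG.base'
  have hCo : ∀ c, Coord D sp (GO2_x w w' c) t (GO2_cb cb cb' c) := by
    intro c
    cases c
    · exact GO2_coord D sp t w cb hG.t_mem hG.fib
    · exact GO2_coord D sp t w' cb' hG.t_mem hG.fib'
  have hval : ∀ c i P, sp P = GO2_x w w' c i → Ev P t (Law.val P t) := by
    intro c i P hP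
    obtain ⟨a, -, ha, -⟩ := (hCo c).ev i P hP
    rw [Law.val_eq ha]
    exact ha
  refine geoOut2 D sp (GO2_x w w') (GO2_P P0 Q0) t (GO2_cb cb cb') _ hG.spd hG.cf hB hCo hval ?_
  obtain ⟨T, hT⟩ := hCE K F k κ D sp g (fun i => w i 0) P0 t hG.spd hG.cf hG.base
  obtain ⟨T', hT'⟩ := hCE K F k κ D sp g (fun i => w' i 0) Q0 t hG.spd hG.cf hG.base'
  refine ⟨fun c => bif c then T' else T, ?_, ?_⟩
  · intro c z P i hP
    cases c
    · exact hT z P (fun i => Law.val (P i) t) (fun i => Law.val (P0 i) t) hP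
        (fun i => hval false i _ (hP.1 i)) (fun i => hval false i _ (hG.base.sp0 i)) i
    · exact hT' z P (fun i => Law.val (P i) t) (fun i => Law.val (Q0 i) t) hP
        (fun i => hval true i _ (hP.1 i)) (fun i => hval true i _ (hG.base'.sp0 i)) i
  · rw [← GO2_J1]
    exact hGC K F k κ D sp g s t Einf w w' cb cb' P0 Q0 hArch hG T T' hT hT'

end GO2

end Fermat.Agent.FF19.A

end
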