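import Fermat.Agent.FF19.A.Defs
import Fermat.Prelude.Def_AlgebraicCurve_BaseChangeGalois
import Fermat.Prelude.Def_AlgebraicCurve_Repartitions

/-!
# FF19 / A : statements (all `Prop`s, each proved in its own file; architect helper36)

See `Defs.lean` for the setting.  OUTPUT : `Stmt_Param` (`J¹ ≃ ∏ disc (x i)`), `Stmt_TInj` (the coordinate `t`
is injective on each residue disc), `Stmt_Gal` (equivariance), `Stmt_Add` (the shape used by block L).
-/

set_option autoImplicit false

noncomputable section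

namespace Fermat.Agent.FF19.A

open AlgebraicCurve
open Fermat.Agent.INJ (RedData)
open Fermat.Agent.RED (Ev)

/-- **FFA-1** (combinatorics of `Finsupp.mapDomain`). -/
def Stmt_Comb : Prop :=
  ∀ (K F k κ : Type) [Field K] [Field F] [Algebra K F] [Field k] [Field κ] [Algebra k κ]
    (sp : Place K F → Place k κ),
    (∀ E : Divisor K F, 0 ≤ E → 0 ≤ push sp E) ∧
    (∀ E E' : Divisor K F, push sp (E + E') = push sp E + push sp E' ∧
      push sp (E - E') = push sp E - push sp E') ∧
    (∀ (g : ℕ) (P : Fin g → Place K F), push sp (sumPl P) = sumPl (fun i => sp (P i))) ∧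
    (∀ (g : ℕ) (P : Fin g → Place K F), 0 ≤ sumPl P ∧
      (∀ Q : Place K F, (∀ i, Q ≠ P i) → sumPl P Q = 0) ∧ ∀ i, 1 ≤ sumPl P (P i)) ∧
    (∀ (g : ℕ) (x : Fin g → Place k κ), Function.Injective x → ∀ E : Divisor K F, 0 ≤ E →
      push sp E = sumPl x → ∃ P : Fin g → Place K F, (∀ i, sp (P i) = x i) ∧ E = sumPl P) ∧
    (∀ (g : ℕ) (x : Fin g → Place k κ), Function.Injective x → ∀ P P' : Fin g → Place K F,
      (∀ i, sp (P i) = x i) → (∀ i, sp (P' i) = x i) → sumPl P = sumPl P' → P = P') ∧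
    (∀ (E : Divisor K F) (y : Place k κ), (∀ P, sp P = y → 0 ≤ E P) →
      (∀ P : Place K F, sp P = y → E P ≤ push sp E y) ∧
      ∀ P P' : Place K F, sp P = y → sp P' = y → P ≠ P' → E P + E P' ≤ push sp E y)

/-- **FFA-2**.  A function of `Wˣ` with poles bounded by a divisor specialising to `∑ x i` has constant
reduction, and its divisor has trivial specialisation. -/
def Stmt_RedConst : Prop :=
  ∀ (K F k κ : Type) [Field K] [Field F] [Algebra K F] [Field k] [Field κ] [Algebra k κ]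
    (D : RedData K F k κ) (sp : Place K F → Place k κ) (g : ℕ) (x : Fin g → Place k κ)
    (P0 : Fin g → Place K F), SpData D sp → Base sp x P0 →
    ∀ (f : F) (Ef E' : Divisor K F), D.rd f ≠ 0 → IsDivOf Ef f → push sp E' = sumPl x →
      0 ≤ E' + Ef → (∃ c : k, c ≠ 0 ∧ D.rd f = algebraMap k κ c) ∧ push sp Ef = 0

/-- **FFA-3** (existence). -/
def Stmt_Ex : Prop :=
  ∀ (K F k κ : Type) [Field K] [Field F] [Algebra K F] [Field k] [Field κ] [Algebra k κ]
    (D : RedData K F k κ) (sp : Place K F → Place k κ) (g : ℕ) (x : Fin g → Place k κ)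
    (P0 : Fin g → Place K F), SpData D sp → CurveFacts K F g → Base sp x P0 →
    ∀ z : Pic0 K F, InJ1 sp z → ∃ P : Fin g → Place K F, Rep sp x P0 z P

/-- **FFA-4**.  `L(∑ P i) = K` if `sp (P i) = x i`. -/
def Stmt_LK : Prop :=
  ∀ (K F k κ : Type) [Field K] [Field F] [Algebra K F] [Field k] [Field κ] [Algebra k κ]
    (D : RedData K F k κ) (sp : Place K F → Place k κ) (g : ℕ) (x : Fin g → Place k κ)
    (P0 : Fin g → Place K F), SpData D sp → CurveFacts K F g → Base sp x P0 →
    ∀ P : Fin g → Place K F, (∀ i, sp (P i) = x i) →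
    ∀ h : F, h ≠ 0 → (∀ Q : Place K F, 0 ≤ sumPl P Q + Q.ord h) → ∃ c : K, h = algebraMap K F c

/-- **FFA-5** (uniqueness). -/
def Stmt_Uniq : Prop :=
  ∀ (K F k κ : Type) [Field K] [Field F] [Algebra K F] [Field k] [Field κ] [Algebra k κ]
    (D : RedData K F k κ) (sp : Place K F → Place k κ) (g : ℕ) (x : Fin g → Place k κ)
    (P0 : Fin g → Place K F), SpData D sp → CurveFacts K F g → Base sp x P0 →
    ∀ (z : Pic0 K F) (P P' : Fin g → Place K F), Rep sp x P0 z P → Rep sp x P0 z P' → P = P'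

/-- **FFA-6**.  `t` is injective on the residue disc of `x i`, with values in `c + 𝔪_A`. -/
def Stmt_TInj : Prop :=
  ∀ (K F k κ : Type) [Field K] [Field F] [Algebra K F] [Field k] [Field κ] [Algebra k κ]
    (D : RedData K F k κ) (sp : Place K F → Place k κ) (g : ℕ) (x : Fin g → Place k κ)
    (t : F) (cb : Fin g → k), SpData D sp → CurveFacts K F g → Coord D sp x t cb →
    (∀ (i : Fin g) (P P' : Place K F) (c : K), sp P = x i → sp P' = x i → Ev P t c → Ev P' t c →
      P = P') ∧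
    (∀ (i : Fin g) (P P' : Place K F) (c c' : K), sp P = x i → sp P' = x i → Ev P t c →
      Ev P' t c' → c ∈ D.A ∧ c - c' ∈ D.A.nonunits)

/-- **FFA-7** (equivariance). -/
def Stmt_Gal : Prop :=
  ∀ (K F k κ : Type) [Field K] [Field F] [Algebra K F] [Field k] [Field κ] [Algebra k κ]
    (sp : Place K F → Place k κ) (g : ℕ) (x : Fin g → Place k κ) (P0 : Fin g → Place K F)
    (s : SemilinearAut K F), (∀ P : Place K F, sp (s • P) = sp P) → (∀ i, s • P0 i = P0 i) →
    (∀ z : Pic0 K F, InJ1 sp z → InJ1 sp (s • z)) ∧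
    (∀ (z : Pic0 K F) (P : Fin g → Place K F), Rep sp x P0 z P →
      Rep sp x P0 (s • z) (fun i => s • P i)) ∧
    (∀ (P : Place K F) (y : F) (c : K), Ev P y c →
      Ev (s • P) (s • y) (SemilinearAut.baseAut s c))

/-- **FFA-8** (the group law in terms of the representations; the shape used by block L). -/
def Stmt_Add : Prop :=
  ∀ (K F k κ : Type) [Field K] [Field F] [Algebra K F] [Field k] [Field κ] [Algebra k κ]
    (sp : Place K F → Place k κ) (g : ℕ) (x : Fin g → Place k κ) (P0 : Fin g → Place K F),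
    (∀ i, sp (P0 i) = x i) →
    (∀ z z' : Pic0 K F, InJ1 sp z → InJ1 sp z' → InJ1 sp (z + z') ∧ InJ1 sp (-z)) ∧ InJ1 sp 0 ∧
    Rep sp x P0 0 P0 ∧
    (∀ (z : Pic0 K F) (P : Fin g → Place K F), Rep sp x P0 z P → InJ1 sp z) ∧
    (∀ (z z' : Pic0 K F) (P P' P'' : Fin g → Place K F), Rep sp x P0 z P → Rep sp x P0 z' P' →
      Rep sp x P0 (z + z') P'' →
      ∃ f : F, f ≠ 0 ∧ IsDivOf (sumPl P'' + sumPl P0 - sumPl P - sumPl P') f)

/-- **FFA-9** (OUTPUT): `J¹ ≃ ∏ disc (x i)`. -/
def Stmt_Param : Prop :=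
  ∀ (K F k κ : Type) [Field K] [Field F] [Algebra K F] [Field k] [Field κ] [Algebra k κ]
    (D : RedData K F k κ) (sp : Place K F → Place k κ) (g : ℕ) (x : Fin g → Place k κ)
    (P0 : Fin g → Place K F), SpData D sp → CurveFacts K F g → Base sp x P0 →
    (∀ z : Pic0 K F, InJ1 sp z ↔ ∃ P : Fin g → Place K F, Rep sp x P0 z P) ∧
    (∀ (z : Pic0 K F) (P P' : Fin g → Place K F), Rep sp x P0 z P → Rep sp x P0 z P' → P = P') ∧
    (∀ (z z' : Pic0 K F) (P : Fin g → Place K F), Rep sp x P0 z P → Rep sp x P0 z' P → z = z') ∧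
    (∀ P : Fin g → Place K F, (∀ i, sp (P i) = x i) → ∃ z : Pic0 K F, Rep sp x P0 z P)

/-- **FFA-10** (OUTPUT): the coordinates `t_i(z) = t(P_i(z)) - t(P0_i)` determine `z ∈ J¹`. -/
def Stmt_Coord : Prop :=
  ∀ (K F k κ : Type) [Field K] [Field F] [Algebra K F] [Field k] [Field κ] [Algebra k κ]
    (D : RedData K F k κ) (sp : Place K F → Place k κ) (g : ℕ) (x : Fin g → Place k κ)
    (P0 : Fin g → Place K F) (t : F) (cb : Fin g → k), SpData D sp → CurveFacts K F g →
    Base sp x P0 → Coord D sp x t cb →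
    (∀ z : Pic0 K F, InJ1 sp z → ∃ (P : Fin g → Place K F) (c : Fin g → K),
      Rep sp x P0 z P ∧ IsVal t P c) ∧
    (∀ (z z' : Pic0 K F) (P P' : Fin g → Place K F) (c : Fin g → K), Rep sp x P0 z P →
      Rep sp x P0 z' P' → IsVal t P c → IsVal t P' c → z = z') ∧
    (∀ (z : Pic0 K F) (P : Fin g → Place K F) (c c0 : Fin g → K), Rep sp x P0 z P → IsVal t P c →
      IsVal t P0 c0 → ∀ i, c i ∈ D.A ∧ c i - c0 i ∈ D.A.nonunits)

/-- **FFA-11** (instantiation, from S27): the facts on the curve, for a function field of one variable over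
an algebraically closed field of characteristic zero. -/
def Stmt_CurveFacts : Prop :=
  ∀ (K F : Type) [Field K] [Field F] [Algebra K F] [IsAlgClosed K] [CharZero K] (x : F),
    Transcendental K x → FiniteDimensional (IntermediateField.adjoin K {x}) F →
    CurveFacts K F (genusFF K F)

end Fermat.Agent.FF19.A

end
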